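/-
S55 (Poitou–Tate), package C8, export (B4), leaf (CLASS-INV) — helper13.

`H29.ClassInvStatement` verbatim: `C_K → C_L` (helper29's `classInflLin`) is injective with image
the `Gal(L/K)`-invariants.  Adapter on helper55's landed `H55.IdeleInv` (`clsLin_injective`,
`clsToInv_surjective`: Hilbert 90 for `L/K`): the two maps `C_K → C_L` agree.
-/
import Fermat.Agent.S55.H29.C8Cls
import Fermat.Agent.S55.H55.IdeleInv

set_option autoImplicit false

open CategoryTheory groupCohomology

noncomputable section

namespace Fermat.Agent.S55.H13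

open Fermat.Agent.S55 Fermat.Agent.S55.H88

attribute [local instance] H88.factOfPrimes

section

variable (k K L : Type) [Field k] [Field K] [Field L] [Algebra k K] [Algebra k L] [Algebra K L]
  [IsScalarTower k K L] [Normal k K] [NumberField K] [NumberField L] [IsGalois K L]
  [FiniteDimensional K L]

/-- helper29's `classInflLin` and helper55's `clsLin` are the same map `C_K → C_L`. -/
theorem classInflLin_eq_clsLin (c : (ideleClassRep k K).V) :
    H29.classInflLin k K L c = H55.IdeleInv.clsLin k K L c := by
  obtain ⟨x, rfl⟩ := Submodule.Quotient.mk_surjective _ c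
  rfl

end

/-- **Leaf (CLASS-INV)**, verbatim. -/
theorem classInvStatement : H29.ClassInvStatement := by
  intro k K L _ _ _ _ _ _ _ _ _ _ _ _
  haveI : IsGalois K L := IsGalois.tower_top_of_isGalois k K L
  haveI : FiniteDimensional K L := Module.Finite.of_restrictScalars_finite ℚ K L
  refine ⟨fun a b h => ?_, fun c hc => ?_⟩
  · rw [classInflLin_eq_clsLin, classInflLin_eq_clsLin] at h
    exact H55.IdeleInv.clsLin_injective k K L h
  · obtain ⟨c₀, hc₀⟩ := H55.IdeleInv.clsToInv_surjective k K L ⟨c, fun g => hc g.1 g.2⟩
    refine ⟨c₀, ?_⟩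
    rw [classInflLin_eq_clsLin]
    exact congrArg Subtype.val hc₀

end Fermat.Agent.S55.H13
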