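/-
S55 (Poitou–Tate), package C8, export (B4) — helper13.

The `H³` leaves of helper29's `C8Cls.lean` (SEMILOCAL-H3, UNR-H3, GLUE-3, IDELE-H3) are all
instances of helper35's landed unconditional theorems (`H35/IdeleH3.lean`); in particular
`H29.IdeleH3Statement` holds, so `H29.h3Kill_of` needs `H29.LiftStatement p` only.
-/
import Fermat.Agent.S55.H29.C8Cls
import Fermat.Agent.S55.H35.IdeleH3

set_option autoImplicit false

open CategoryTheory groupCohomology

noncomputable section

namespace Fermat.Agent.S55.H13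

open Fermat.Agent.S55

attribute [local instance] H88.factOfPrimes

/-- **(IDELE-H3)**, verbatim: `H³(Gal(K/k), J_K) = 0` (helper35's `ideleH3`). -/
theorem ideleH3Statement : H29.IdeleH3Statement :=
  fun k K _ _ _ _ _ _ => H35.ideleH3 k K

/-- **Leaf (SEMILOCAL-H3)**, verbatim. -/
theorem semiLocalH3Statement : H29.SemiLocalH3Statement :=
  fun k K _ _ _ _ _ _ q => H35.isZero_H3_semiLocalRep (q : ℕ) k K

/-- **Leaf (UNR-H3)**, verbatim. -/
theorem unramifiedUnitsH3Statement : H29.UnramifiedUnitsH3Statement :=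
  fun k K _ _ _ _ _ _ q hunr => H35.isZero_H3_semiLocalUnitsRep (q : ℕ) k K hunr

/-- **Leaf (GLUE-3)**, verbatim (the conclusion holds unconditionally). -/
theorem ideleGlue3Statement : H29.IdeleGlue3Statement :=
  fun k K _ _ _ _ _ _ _ _ => H35.ideleH3 k K

/-- Export (B4) from (LIFT) alone. -/
theorem h3Kill_of_lift {p : ℕ} (hL : H29.LiftStatement p) : H29.H3KillStatement p :=
  H29.h3Kill_of ideleH3Statement hL

end Fermat.Agent.S55.H13
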