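/-
Program C (S55), package C8, leaf R3f (helper29's REC chain), LOCAL–GLOBAL half, part 1: the
normalised absolute value of an embedded local field (helper66's vocabulary) and one-units of
`PadicAlgCl q`.  The product formula itself is in `ProductFormula.lean`.

* `nrm_pow_finrank` (LG0): the normalised absolute value of an embedded local field,
  `nrm x ^ [F : ℚ_q] = (#k_F)⁻¹ ^ ord x`;
* `resDeg`, `resCard_eq_pow_resDeg` : `#k_F = q ^ f`, `f > 0`;
* `norm_norm_eq_prod_place` (LG1): `‖N_{K/ℚ} a‖_q = ∏_{v ∣ q} (#k_v)⁻¹ ^ ord_v a`;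
* `padicValRat_norm_eq_sum` (LG1, integer form): `v_q (N_{K/ℚ} a) = ∑_{v ∣ q} f_v * ord_v a`;
* `norm_norm_sub_one_lt` (LG2): if `a` is a one-unit at every place above `q`, then
  `N_{K/ℚ} a` is a `q`-adic one-unit.
-/
import Fermat.Agent.S55.H39.RamInertia

set_option autoImplicit false

noncomputable section

namespace Fermat.Agent.S55.H13

open Module

/-- The absolute residue degree of `F`. -/
def resDeg (q : ℕ) [Fact q.Prime] (F : Type) [Field F] [Algebra F (PadicAlgCl q)] : ℕ :=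
  Nat.log q (H66.resCard q F)

variable (q : ℕ) [Fact q.Prime]

/-! ### The normalised absolute value of an embedded local field -/

section Local

variable (F : Type) [Field F] [Algebra ℚ_[q] F] [Algebra F (PadicAlgCl q)]
  [IsScalarTower ℚ_[q] F (PadicAlgCl q)] [FiniteDimensional ℚ_[q] F]

/-- The absolute fundamental identity in terms of `unifNrm`. -/
theorem exists_unifNrm_pow :
    ∃ e : ℕ, 0 < e ∧ H66.unifNrm q F ^ e = (q : ℝ)⁻¹ ∧
      H66.resCard q F ^ e = q ^ finrank ℚ_[q] F := by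
  obtain ⟨h0, h1, ⟨π, hπ⟩, hord⟩ := H66.leafOrd q F
  have hπ0 : π ≠ 0 := by
    rintro rfl
    have h2 : H66.nrm q (0 : F) = 0 := by simp [H66.nrm]
    rw [h2] at hπ
    exact h0.ne hπ
  have hπg : ∀ y : F, y ≠ 0 → ∃ n : ℤ, H66.nrm q y = H66.nrm q π ^ n := fun y hy =>
    ⟨H66.ord q y, by rw [hπ]; exact hord y hy⟩
  obtain ⟨e, he, hne, hcard⟩ := H39.fundId_abs hπ0 (hπ ▸ h1) hπg
  exact ⟨e, he, hπ ▸ hne, hcard⟩

/-- `unifNrm ^ [F : ℚ_q] = (#k_F)⁻¹`. -/
theorem unifNrm_pow_finrank :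
    H66.unifNrm q F ^ finrank ℚ_[q] F = ((H66.resCard q F : ℕ) : ℝ)⁻¹ := by
  obtain ⟨h0, -, -, -⟩ := H66.leafOrd q F
  obtain ⟨e, he, hne, hcard⟩ := exists_unifNrm_pow q F
  have h2 : (H66.unifNrm q F ^ finrank ℚ_[q] F) ^ e = (((H66.resCard q F : ℕ) : ℝ)⁻¹) ^ e := by
    rw [← pow_mul, mul_comm, pow_mul, hne, inv_pow, inv_pow]
    congr 1
    exact_mod_cast hcard.symm
  exact (pow_left_inj₀ (pow_nonneg h0.le _) (by positivity) he.ne').mp h2

/-- **(LG0)** The normalised absolute value: `nrm x ^ [F : ℚ_q] = (#k_F)⁻¹ ^ ord x`. -/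
theorem nrm_pow_finrank {x : F} (hx : x ≠ 0) :
    H66.nrm q x ^ finrank ℚ_[q] F = (((H66.resCard q F : ℕ) : ℝ)⁻¹) ^ (H66.ord q x) := by
  obtain ⟨-, -, -, hord⟩ := H66.leafOrd q F
  rw [hord x hx, ← zpow_natCast, ← zpow_mul, mul_comm, zpow_mul, zpow_natCast,
    unifNrm_pow_finrank]

/-- The residue field has `q ^ f` elements, `f > 0`. -/
theorem exists_resCard_eq_pow : ∃ f : ℕ, 0 < f ∧ H66.resCard q F = q ^ f := by
  obtain ⟨e, he, -, hcard⟩ := exists_unifNrm_pow q F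
  have hdvd : H66.resCard q F ∣ q ^ finrank ℚ_[q] F := by
    rw [← hcard]
    exact dvd_pow_self _ he.ne'
  obtain ⟨f, -, hf⟩ := (Nat.dvd_prime_pow (Fact.out : q.Prime)).1 hdvd
  refine ⟨f, ?_, hf⟩
  rcases Nat.eq_zero_or_pos f with h | h
  · have h2 := H39.two_le_resCard q F
    rw [hf, h, pow_zero] at h2
    omega
  · exact h

theorem resCard_eq_pow_resDeg : H66.resCard q F = q ^ resDeg q F := by
  obtain ⟨f, -, hf⟩ := exists_resCard_eq_pow q F
  rw [resDeg, hf, Nat.log_pow (Fact.out : q.Prime).one_lt]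

theorem resDeg_pos : 0 < resDeg q F := by
  obtain ⟨f, hf0, hf⟩ := exists_resCard_eq_pow q F
  rw [resDeg, hf, Nat.log_pow (Fact.out : q.Prime).one_lt]
  exact hf0

end Local

/-! ### Automorphisms are isometries; one-units -/

section Isom

theorem norm_algEquiv_apply' (g : PadicAlgCl q ≃ₐ[ℚ_[q]] PadicAlgCl q) (x : PadicAlgCl q) :
    ‖g x‖ = ‖x‖ := by
  rw [← PadicAlgCl.spectralNorm_eq, ← PadicAlgCl.spectralNorm_eq]
  exact (spectralNorm_eq_of_equiv g x).symm

/-- The one-units of `PadicAlgCl q` are closed under multiplication. -/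
theorem norm_mul_sub_one_lt {x y : PadicAlgCl q} (hx : ‖x - 1‖ < 1) (hy : ‖y - 1‖ < 1) :
    ‖x * y - 1‖ < 1 := by
  have e : x * y - 1 = (x - 1) * (y - 1) + ((x - 1) + (y - 1)) := by ring
  rw [e]
  have h1 : ‖(x - 1) * (y - 1)‖ < 1 := by
    rw [norm_mul]
    calc ‖x - 1‖ * ‖y - 1‖ ≤ ‖x - 1‖ * 1 :=
          mul_le_mul_of_nonneg_left hy.le (norm_nonneg _)
      _ = ‖x - 1‖ := mul_one _
      _ < 1 := hx
  have h2 : ‖(x - 1) + (y - 1)‖ < 1 :=
    lt_of_le_of_lt (PadicAlgCl.isNonarchimedean q _ _) (max_lt hx hy)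
  exact lt_of_le_of_lt (PadicAlgCl.isNonarchimedean q _ _) (max_lt h1 h2)

theorem norm_prod_sub_one_lt {ι : Type*} (s : Finset ι) (f : ι → PadicAlgCl q)
    (h : ∀ i ∈ s, ‖f i - 1‖ < 1) : ‖∏ i ∈ s, f i - 1‖ < 1 := by
  classical
  induction s using Finset.induction_on with
  | empty => simp
  | insert i s hi ih =>
    rw [Finset.prod_insert hi]
    exact norm_mul_sub_one_lt q (h i (Finset.mem_insert_self i s))
      (ih fun j hj => h j (Finset.mem_insert_of_mem hj))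

theorem prod_zpow_eq_zpow_sum {ι : Type*} (s : Finset ι) (b : ℝ) (hb : b ≠ 0) (k : ι → ℤ) :
    ∏ i ∈ s, b ^ k i = b ^ ∑ i ∈ s, k i := by
  classical
  induction s using Finset.induction_on with
  | empty => simp
  | insert i s hi ih => rw [Finset.prod_insert hi, Finset.sum_insert hi, zpow_add₀ hb, ih]

end Isom

end Fermat.Agent.S55.H13
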