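/-
Program C (S55), package C3, leaves L5a/L5b (`LeafPowIndex`, `LeafUnitPowIndex`): the adapter
from helper67's index formulas (complete discrete valuation rings with finite residue field)
to the embedded-local-field model of helper66, through helper66's bridge to helper88's model.

The two inputs that are specific to the `PadicAlgCl q` model are isolated as hypotheses:
* `AdicHyp q`: the ring of integers of a finite extension of `ℚ_q` is adically complete;
* `CardHyp q`: `#(O ⧸ qO) = q ^ [K : ℚ_q]`.
-/
import Fermat.Agent.S55.H66.LocalBridge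
import Fermat.Agent.S55.H67.PowIndexField

set_option autoImplicit false

noncomputable section

namespace Fermat.Agent.S55.H13

open IsLocalRing

variable (q : ℕ) [Fact q.Prime]

/-- (F3): the ring of integers of a finite extension of `ℚ_q` in `PadicAlgCl q` is adically
complete. -/
def AdicHyp : Prop :=
  ∀ (K : IntermediateField ℚ_[q] (PadicAlgCl q)) [FiniteDimensional ℚ_[q] K],
    IsAdicComplete (maximalIdeal (H88.integerRing K)) (H88.integerRing K)

/-- `#(O ⧸ qO) = q ^ [K : ℚ_q]`. -/
def CardHyp : Prop :=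
  ∀ (K : IntermediateField ℚ_[q] (PadicAlgCl q)) [FiniteDimensional ℚ_[q] K],
    Nat.card (H88.integerRing K ⧸ Ideal.span {(q : H88.integerRing K)}) =
      q ^ Module.finrank ℚ_[q] K

section Abs

variable {q}
variable (K : IntermediateField ℚ_[q] (PadicAlgCl q))

/-- The norm of a natural number in `K`. -/
theorem norm_natCast_abs (n : ℕ) : ‖(n : K)‖ = ‖(n : ℚ_[q])‖ := by
  rw [show ‖(n : K)‖ = ‖((n : K) : PadicAlgCl q)‖ from rfl]
  have : (((n : K) : PadicAlgCl q)) = algebraMap ℚ_[q] (PadicAlgCl q) (n : ℚ_[q]) := by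
    simp
  rw [this, PadicAlgCl.norm_extends]

/-- A prime `p ≠ q` is a unit of the ring of integers. -/
theorem isUnit_natCast_integerRing {p : ℕ} (hp : p.Prime) (hpq : p ≠ q) :
    IsUnit (p : H88.integerRing K) := by
  rw [H88.isUnit_integerRing_iff]
  show ‖((p : ℕ) : K)‖ = 1
  rw [norm_natCast_abs, Padic.norm_natCast_eq_one_iff]
  exact (Nat.coprime_primes (Fact.out : q.Prime) hp).2 (Ne.symm hpq)

theorem natCast_integerRing_ne_zero {p : ℕ} (hp : p ≠ 0) : (p : H88.integerRing K) ≠ 0 := by
  exact_mod_cast hp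

variable [FiniteDimensional ℚ_[q] K]

/-- The unit power index in helper88's model. -/
theorem index_pow_units_abs (hA : AdicHyp q) (hB : CardHyp q) {p : ℕ} (hp : p.Prime) :
    (powMonoidHom p : (H88.integerRing K)ˣ →* (H88.integerRing K)ˣ).range.index =
      Nat.card (powMonoidHom p : Kˣ →* Kˣ).ker *
        (if p = q then q ^ Module.finrank ℚ_[q] K else 1) := by
  have := H88.isDiscreteValuationRing_integerRing K
  have := H88.finite_residueField K
  have := hA K
  rw [H67.card_ker_pow_field_eq (O := H88.integerRing K) K hp.ne_zero]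
  by_cases hpq : p = q
  · subst hpq
    rw [if_pos rfl, H67.index_range_pow_units (H88.integerRing K) hp
      (natCast_integerRing_ne_zero K hp.ne_zero), hB K]
  · rw [if_neg hpq, mul_one, H67.index_range_pow_units_of_isUnit (H88.integerRing K) hp
      (isUnit_natCast_integerRing K hp hpq)]

/-- The power index in helper88's model. -/
theorem index_pow_abs (hA : AdicHyp q) (hB : CardHyp q) {p : ℕ} (hp : p.Prime) :
    (powMonoidHom p : Kˣ →* Kˣ).range.index =
      p * Nat.card (powMonoidHom p : Kˣ →* Kˣ).ker *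
        (if p = q then q ^ Module.finrank ℚ_[q] K else 1) := by
  have := H88.isDiscreteValuationRing_integerRing K
  rw [H67.index_range_pow_field_eq (O := H88.integerRing K) K p, index_pow_units_abs K hA hB hp,
    mul_assoc]

end Abs

section Model

variable (F : Type) [Field F] [Algebra ℚ_[q] F] [Algebra F (PadicAlgCl q)]
  [IsScalarTower ℚ_[q] F (PadicAlgCl q)]

/-- The kernel of the `p`-th power map is `μ_p`. -/
theorem ker_pow_eq_rootsOfUnity (F : Type) [Field F] (p : ℕ) :
    (powMonoidHom p : Fˣ →* Fˣ).ker = rootsOfUnity p F := by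
  ext x
  rw [MonoidHom.mem_ker, powMonoidHom_apply, mem_rootsOfUnity]

/-- The unit group of helper66's model is the unit group of the valuation ring. -/
theorem unitGroup_eq (F : Type) [Field F] [Algebra F (PadicAlgCl q)] :
    H66.unitGroup q F = (H66.intRing q F).unitGroup := by
  ext x
  rw [ValuationSubring.mem_unitGroup_iff]
  show H66.nrm q (x : F) = 1 ↔ _
  have h1 : (H66.intRing q F).valuation (x : F) ≤ 1 ↔ H66.nrm q (x : F) ≤ 1 := by
    rw [ValuationSubring.valuation_le_one_iff, H66.mem_intRing_iff]
  have h2 : (H66.intRing q F).valuation ((x : F)⁻¹) ≤ 1 ↔ H66.nrm q ((x : F)⁻¹) ≤ 1 := by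
    rw [ValuationSubring.valuation_le_one_iff, H66.mem_intRing_iff]
  have hx0 : (x : F) ≠ 0 := x.ne_zero
  have hpos : 0 < H66.nrm q (x : F) := by
    simp only [H66.nrm, norm_pos_iff, ne_eq, map_eq_zero]
    exact hx0
  have hinv : H66.nrm q ((x : F)⁻¹) = (H66.nrm q (x : F))⁻¹ := by
    simp only [H66.nrm, map_inv₀, norm_inv]
  constructor
  · intro h
    refine le_antisymm (h1.2 h.le) ?_
    have h3 : (H66.intRing q F).valuation ((x : F)⁻¹) ≤ 1 := by
      rw [h2, hinv, h, inv_one]
    rw [map_inv₀] at h3
    exact (inv_le_one₀ ((Valuation.pos_iff _).2 hx0)).1 h3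
  · intro h
    refine le_antisymm (h1.1 h.le) ?_
    have h3 : (H66.intRing q F).valuation ((x : F)⁻¹) ≤ 1 := by
      rw [map_inv₀, h, inv_one]
    rw [h2, hinv] at h3
    exact (inv_le_one₀ hpos).1 h3

/-- `finrank` of the image of `F`. -/
theorem finrank_absField : Module.finrank ℚ_[q] (H66.absField q F) = Module.finrank ℚ_[q] F :=
  (H66.toAbs q F).toLinearEquiv.finrank_eq.symm

variable [FiniteDimensional ℚ_[q] F]

/-- L5a from the two model hypotheses. -/
theorem powIndex_of (hA : AdicHyp q) (hB : CardHyp q) {p : ℕ} (hp : p.Prime) :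
    (powMonoidHom p : Fˣ →* Fˣ).range.index =
      p * Nat.card (rootsOfUnity p F) *
        (if p = q then q ^ Module.finrank ℚ_[q] F else 1) := by
  have e : Fˣ ≃* (H66.absField q F)ˣ := Units.mapEquiv (H66.toAbs q F).toMulEquiv
  rw [← ker_pow_eq_rootsOfUnity F p, ← H67.index_range_pow_congr e p,
    ← H67.card_ker_pow_congr e p, ← finrank_absField q F]
  exact index_pow_abs (H66.absField q F) hA hB hp

/-- L5b from the two model hypotheses. -/
theorem unitPowIndex_of (hA : AdicHyp q) (hB : CardHyp q) {p : ℕ} (hp : p.Prime) :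
    ((H66.unitGroup q F).map (powMonoidHom p : Fˣ →* Fˣ)).relIndex (H66.unitGroup q F) =
      Nat.card (rootsOfUnity p F) *
        (if p = q then q ^ Module.finrank ℚ_[q] F else 1) := by
  have e : Fˣ ≃* (H66.absField q F)ˣ := Units.mapEquiv (H66.toAbs q F).toMulEquiv
  have e' : (H66.intRing q F)ˣ ≃* (H88.integerRing (H66.absField q F))ˣ :=
    Units.mapEquiv (H66.intEquiv q F).toMulEquiv
  rw [unitGroup_eq q F, H67.relIndex_map_pow_unitGroup (H66.intRing q F) p,
    ← H67.index_range_pow_congr e' p, ← ker_pow_eq_rootsOfUnity F p,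
    ← H67.card_ker_pow_congr e p, ← finrank_absField q F]
  exact index_pow_units_abs (H66.absField q F) hA hB hp

end Model

/-- Leaf L5a of helper66's `LocalSpec`, from the two model hypotheses. -/
theorem leafPowIndex_of (hA : AdicHyp q) (hB : CardHyp q) : H66.LeafPowIndex q := by
  intro F _ _ _ _ _ p hp
  exact powIndex_of q F hA hB hp

/-- Leaf L5b of helper66's `LocalSpec`, from the two model hypotheses. -/
theorem leafUnitPowIndex_of (hA : AdicHyp q) (hB : CardHyp q) : H66.LeafUnitPowIndex q := by
  intro F _ _ _ _ _ p hp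
  exact unitPowIndex_of q F hA hB hp

end Fermat.Agent.S55.H13
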