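/-
Program C (S55), package C3: the leaves L5a `LeafPowIndex` and L5b `LeafUnitPowIndex` of
helper66's `LocalSpec`, VERBATIM, from the adapter `PowIndexAdapter` and helper67's two model
inputs (`isAdicComplete_integerRing`, `card_quot_span_prime_emb`).
-/
import Fermat.Agent.S55.H13.PowIndexAdapter
import Fermat.Agent.S55.H67.LocalIndexEmb

set_option autoImplicit false

namespace Fermat.Agent.S55.H13

variable (q : ℕ) [Fact q.Prime]

/-- (F3), by helper67. -/
theorem adicHyp : AdicHyp q := fun K _ => H67.isAdicComplete_integerRing K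

/-- `#(O ⧸ qO) = q ^ [K : ℚ_q]`, by helper67. -/
theorem cardHyp : CardHyp q := fun K _ => H67.card_quot_span_prime_emb K

/-- **Leaf L5a**: `(Fˣ : Fˣᵖ) = p · #μ_p(F) · q^{[F:ℚ_q]·[p = q]}`. -/
theorem leafPowIndex : H66.LeafPowIndex q := leafPowIndex_of q (adicHyp q) (cardHyp q)

/-- **Leaf L5b**: `(U : Uᵖ) = #μ_p(F) · q^{[F:ℚ_q]·[p = q]}`. -/
theorem leafUnitPowIndex : H66.LeafUnitPowIndex q :=
  leafUnitPowIndex_of q (adicHyp q) (cardHyp q)

end Fermat.Agent.S55.H13
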