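/-
Program C (S55), package C8, leaf R3f (helper29's REC chain), LOCAL–GLOBAL half, part 2: the
product formula for the norm of a number field in the embedding model of helper88, in the
vocabulary of helper66's local fields.

* `norm_norm_eq_prod_place` (LG1): `‖N_{K/ℚ} a‖_q = ∏_{v ∣ q} (#k_v)⁻¹ ^ ord_v a`;
* `padicValRat_norm_eq_sum` (LG1, integer form): `v_q (N_{K/ℚ} a) = ∑_{v ∣ q} f_v * ord_v a`;
* `norm_norm_sub_one_lt` (LG2): if `a` is a one-unit at every place above `q`, then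
  `N_{K/ℚ} a` is a `q`-adic one-unit.
-/
import Fermat.Agent.S55.H13.NormAbs
import Fermat.Agent.S55.H41.SumLocalDegree

set_option autoImplicit false

noncomputable section

namespace Fermat.Agent.S55.H13

open Module

variable (q : ℕ) [Fact q.Prime]

/-! ### The product formula -/

section Global

open H88

variable (K : Type*) [Field K] [NumberField K]

/-- The `q`-adic norm of the norm of `a` is the product of the norms of its conjugates. -/
theorem norm_norm_eq_prod_embeddings (a : K) :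
    ‖((Algebra.norm ℚ a : ℚ) : ℚ_[q])‖ = ∏ τ : K →+* PadicAlgCl q, ‖τ a‖ := by
  have h := Algebra.norm_eq_prod_embeddings ℚ (PadicAlgCl q) a
  have h1 : algebraMap ℚ (PadicAlgCl q) (Algebra.norm ℚ a) =
      algebraMap ℚ_[q] (PadicAlgCl q) ((Algebra.norm ℚ a : ℚ) : ℚ_[q]) := by
    simp
  rw [← PadicAlgCl.norm_extends, ← h1, h, norm_prod]
  exact (Fintype.prod_equiv (RingHom.equivRatAlgHom K (PadicAlgCl q)) _ _ fun τ => rfl).symm

/-- The image of the norm of `a` in `PadicAlgCl q` is the product of its conjugates. -/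
theorem algebraMap_norm_eq_prod_embeddings (a : K) :
    algebraMap ℚ_[q] (PadicAlgCl q) ((Algebra.norm ℚ a : ℚ) : ℚ_[q]) =
      ∏ τ : K →+* PadicAlgCl q, τ a := by
  have h := Algebra.norm_eq_prod_embeddings ℚ (PadicAlgCl q) a
  have h1 : algebraMap ℚ (PadicAlgCl q) (Algebra.norm ℚ a) =
      algebraMap ℚ_[q] (PadicAlgCl q) ((Algebra.norm ℚ a : ℚ) : ℚ_[q]) := by
    simp
  rw [← h1, h]
  exact (Fintype.prod_equiv (RingHom.equivRatAlgHom K (PadicAlgCl q)) _ _ fun τ => rfl).symm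

variable {K}

omit [NumberField K] in
/-- The norm of helper66's model on the completion at `τ`. -/
theorem nrm_locEmb (τ : K →+* PadicAlgCl q) (a : K) : H66.nrm q (locEmb q τ a) = ‖τ a‖ := rfl

/-- An embedding in the place `v` is conjugate to the chosen embedding of `v`. -/
theorem exists_eq_comp_emb (v : PlaceAbove q K) {τ : K →+* PadicAlgCl q}
    (h : placeOf q τ = v) :
    ∃ g : PadicAlgCl q ≃ₐ[ℚ_[q]] PadicAlgCl q,
      τ = (g : PadicAlgCl q →+* PadicAlgCl q).comp v.emb :=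
  (H41.fibreEquiv q K v ⟨τ, h⟩).2

theorem norm_apply_eq_of_placeOf (v : PlaceAbove q K) {τ : K →+* PadicAlgCl q}
    (h : placeOf q τ = v) (a : K) : ‖τ a‖ = ‖v.emb a‖ := by
  obtain ⟨g, rfl⟩ := exists_eq_comp_emb q v h
  exact norm_algEquiv_apply' q g (v.emb a)

theorem norm_apply_sub_one_eq_of_placeOf (v : PlaceAbove q K) {τ : K →+* PadicAlgCl q}
    (h : placeOf q τ = v) (a : K) : ‖τ a - 1‖ = ‖v.emb a - 1‖ := by
  obtain ⟨g, rfl⟩ := exists_eq_comp_emb q v h
  have e : ((g : PadicAlgCl q →+* PadicAlgCl q).comp v.emb) a - 1 = g (v.emb a - 1) := by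
    simp
  rw [e]
  exact norm_algEquiv_apply' q g _

variable (K)

/-- The norm of `N_{K/ℚ} a` as a product over the places above `q`, with the local degrees as
exponents. -/
theorem norm_norm_eq_prod_place_pow [Fintype (PlaceAbove q K)] (a : K) :
    ‖((Algebra.norm ℚ a : ℚ) : ℚ_[q])‖ =
      ∏ v : PlaceAbove q K, ‖v.emb a‖ ^ finrank ℚ_[q] (locField q v.emb) := by
  classical
  rw [norm_norm_eq_prod_embeddings, ← Fintype.prod_fiberwise (placeOf q (K := K))]
  refine Finset.prod_congr rfl fun v _ => ?_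
  rw [Finset.prod_congr rfl fun (τ : {τ : K →+* PadicAlgCl q // placeOf q τ = v}) _ =>
    norm_apply_eq_of_placeOf q v τ.2 a, Finset.prod_const, Finset.card_univ,
    ← Nat.card_eq_fintype_card, Nat.card_congr (H41.fibreEquiv q K v), H41.natCard_orbit]

/-- **(LG1)** The product formula at `q`:
`‖N_{K/ℚ} a‖_q = ∏_{v ∣ q} (#k_v)⁻¹ ^ ord_v a`. -/
theorem norm_norm_eq_prod_place [Fintype (PlaceAbove q K)] {a : K} (ha : a ≠ 0) :
    ‖((Algebra.norm ℚ a : ℚ) : ℚ_[q])‖ =
      ∏ v : PlaceAbove q K, (((H66.resCard q (locField q v.emb) : ℕ) : ℝ)⁻¹) ^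
        (H66.ord q (locEmb q v.emb a)) := by
  rw [norm_norm_eq_prod_place_pow]
  refine Finset.prod_congr rfl fun v _ => ?_
  have := H41.finiteDimensional_locField q K v.emb
  have hne : locEmb q v.emb a ≠ 0 := (map_ne_zero_iff _ (locEmb q v.emb).injective).2 ha
  have h := nrm_pow_finrank q (locField q v.emb) hne
  rw [← nrm_locEmb q v.emb a]
  exact h

/-- **(LG1), integer form**: `v_q (N_{K/ℚ} a) = ∑_{v ∣ q} f_v * ord_v a`. -/
theorem padicValRat_norm_eq_sum [Fintype (PlaceAbove q K)] {a : K} (ha : a ≠ 0) :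
    padicValRat q (Algebra.norm ℚ a) =
      ∑ v : PlaceAbove q K, (resDeg q (locField q v.emb) : ℤ) *
        H66.ord q (locEmb q v.emb a) := by
  have hq1 : (1 : ℝ) < q := by exact_mod_cast (Fact.out : q.Prime).one_lt
  have hq0 : (q : ℝ) ≠ 0 := by positivity
  have hN : (Algebra.norm ℚ a : ℚ) ≠ 0 := by rwa [Ne, Algebra.norm_eq_zero_iff]
  have hN' : ((Algebra.norm ℚ a : ℚ) : ℚ_[q]) ≠ 0 := by exact_mod_cast hN
  have h1 := norm_norm_eq_prod_place q K ha
  rw [Padic.norm_eq_zpow_neg_valuation hN', Padic.valuation_ratCast] at h1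
  have h2 : ∀ v : PlaceAbove q K,
      (((H66.resCard q (locField q v.emb) : ℕ) : ℝ)⁻¹) ^ (H66.ord q (locEmb q v.emb a)) =
        (q : ℝ) ^ (-((resDeg q (locField q v.emb) : ℤ) * H66.ord q (locEmb q v.emb a))) := by
    intro v
    have := H41.finiteDimensional_locField q K v.emb
    rw [resCard_eq_pow_resDeg q (locField q v.emb), Nat.cast_pow, ← zpow_natCast, ← zpow_neg,
      ← zpow_mul, neg_mul]
  rw [Finset.prod_congr rfl fun v _ => h2 v, prod_zpow_eq_zpow_sum _ _ hq0,
    Finset.sum_neg_distrib] at h1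
  exact neg_injective (zpow_right_injective₀ (by positivity) hq1.ne' h1)

/-- **(LG2)** If every conjugate of `a` is a one-unit, `N_{K/ℚ} a` is a `q`-adic one-unit. -/
theorem norm_norm_sub_one_lt_of_forall (a : K) (h : ∀ τ : K →+* PadicAlgCl q, ‖τ a - 1‖ < 1) :
    ‖((Algebra.norm ℚ a : ℚ) : ℚ_[q]) - 1‖ < 1 := by
  rw [← PadicAlgCl.norm_extends, map_sub, map_one, algebraMap_norm_eq_prod_embeddings]
  exact norm_prod_sub_one_lt q _ _ fun τ _ => h τ

/-- **(LG2)**, place form: if `a` is a one-unit at (the chosen embedding of) every place above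
`q`, then `N_{K/ℚ} a` is a `q`-adic one-unit. -/
theorem norm_norm_sub_one_lt (a : K) (h : ∀ v : PlaceAbove q K, ‖v.emb a - 1‖ < 1) :
    ‖((Algebra.norm ℚ a : ℚ) : ℚ_[q]) - 1‖ < 1 :=
  norm_norm_sub_one_lt_of_forall q K a fun τ => by
    rw [norm_apply_sub_one_eq_of_placeOf q (placeOf q τ) rfl a]
    exact h _

/-- A `q`-adic one-unit has valuation `0`. -/
theorem padicValRat_eq_zero_of_norm_sub_one_lt {r : ℚ} (h : ‖(r : ℚ_[q]) - 1‖ < 1) :
    padicValRat q r = 0 := by
  have h1 : ‖(r : ℚ_[q])‖ = 1 := by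
    have e : (r : ℚ_[q]) = ((r : ℚ_[q]) - 1) + 1 := by ring
    rw [e]
    have h2 : ‖((r : ℚ_[q]) - 1) + 1‖ = max ‖(r : ℚ_[q]) - 1‖ ‖(1 : ℚ_[q])‖ :=
      Padic.add_eq_max_of_ne (by rw [norm_one]; exact h.ne)
    rw [h2, norm_one, max_eq_right h.le]
  have hr : (r : ℚ_[q]) ≠ 0 := by
    intro h0
    rw [h0, norm_zero] at h1
    exact zero_ne_one h1
  have hq1 : (1 : ℝ) < q := by exact_mod_cast (Fact.out : q.Prime).one_lt
  rw [Padic.norm_eq_zpow_neg_valuation hr, Padic.valuation_ratCast] at h1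
  have h3 : (q : ℝ) ^ (-padicValRat q r) = (q : ℝ) ^ (0 : ℤ) := by rw [h1, zpow_zero]
  exact neg_eq_zero.1 (zpow_right_injective₀ (by positivity) hq1.ne' h3)

end Global

end Fermat.Agent.S55.H13
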